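import Fermat.Agent.S24.JFun.QFun
import Fermat.Prelude.Def_FLTPrelim_Modularity

/-!
# S16 (helper302): `q`-coefficients of a function given by a convergent `q`-series

If `f : ℍ → ℂ` satisfies `f τ = ∑ c m q(τ)^m` for every `τ` (`q = exp (2πiτ)`), then
`qCoeff f m = c m`.  No modularity, holomorphy or boundedness hypothesis is needed: they all
follow from the convergence of the series on the whole of `ℍ`.
-/

set_option autoImplicit false

noncomputable section

namespace Fermat.Agent.S16.H302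

open Filter Topology Complex Metric Function
open UpperHalfPlane hiding I
open scoped Manifold

local notation "𝕢" => Function.Periodic.qParam

/-- On the punctured unit disc the cusp function is the sum of the `q`-series. -/
theorem hasSum_cuspFunction_punctured {f : ℍ → ℂ} {c : ℕ → ℂ}
    (hf : ∀ τ : ℍ, HasSum (fun m : ℕ => c m • 𝕢 1 (τ : ℂ) ^ m) (f τ)) {q : ℂ} (hq : ‖q‖ < 1)
    (hq1 : q ≠ 0) : HasSum (fun m : ℕ => c m • q ^ m) (cuspFunction 1 f q) := by
  have h1 := Periodic.im_invQParam_pos_of_norm_lt_one one_pos hq hq1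
  have h2 := Periodic.cuspFunction_eq_of_nonzero 1 (f ∘ ofComplex) hq1
  have h3 : cuspFunction 1 f q = f ⟨Periodic.invQParam 1 q, h1⟩ := by
    rw [cuspFunction, h2, Function.comp_apply, ofComplex_apply_of_im_pos h1]
  have h4 := hf ⟨Periodic.invQParam 1 q, h1⟩
  have h5 : 𝕢 1 ((⟨Periodic.invQParam 1 q, h1⟩ : ℍ) : ℂ) = q :=
    Periodic.qParam_right_inv one_ne_zero hq1
  rw [h5] at h4
  rw [h3]
  exact h4

/-- The cusp function, corrected at `0`, is the sum of the `q`-series on the unit disc. -/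
theorem hasFPowerSeriesOnBall_update_cuspFunction {f : ℍ → ℂ} {c : ℕ → ℂ}
    (hf : ∀ τ : ℍ, HasSum (fun m : ℕ => c m • 𝕢 1 (τ : ℂ) ^ m) (f τ)) :
    HasFPowerSeriesOnBall (update (cuspFunction 1 f) 0 (c 0)) (.ofScalars ℂ c) 0 1 := by
  constructor
  · refine le_of_forall_lt_imp_le_of_dense fun r hr ↦ ?_
    rcases eq_or_ne r 0 with rfl | hr'
    · simp
    · lift r to NNReal using hr.ne_top
      apply FormalMultilinearSeries.le_radius_of_summable
      simpa [smul_eq_mul, norm_mul, mul_comm, mul_left_comm, mul_assoc] using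
        (hasSum_cuspFunction_punctured hf (q := r) (by simpa using hr)
          (mod_cast hr')).summable.norm
  · simp
  · intro y hy
    rw [← ENNReal.coe_one, Metric.eball_coe, NNReal.coe_one, mem_ball_zero_iff] at hy
    rcases eq_or_ne y 0 with rfl | hy'
    · simpa +contextual [zero_pow_eq] using hasSum_ite_eq 0 (c 0)
    · simpa [update_of_ne hy', mul_comm]
        using hasSum_cuspFunction_punctured hf hy hy'

/-- A function given by a `q`-series converging on all of `ℍ` is of the form `g ∘ q` with `g`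
holomorphic on the unit disc. -/
theorem exists_ofQ_of_hasSum {f : ℍ → ℂ} {c : ℕ → ℂ}
    (hf : ∀ τ : ℍ, HasSum (fun m : ℕ => c m • 𝕢 1 (τ : ℂ) ^ m) (f τ)) :
    ∃ g : ℂ → ℂ, DifferentiableOn ℂ g (ball 0 1) ∧ f = Fermat.Agent.S24.JFun.ofQ g := by
  refine ⟨update (cuspFunction 1 f) 0 (c 0), ?_, ?_⟩
  · have H := hasFPowerSeriesOnBall_update_cuspFunction hf
    have := H.differentiableOn
    rwa [← ENNReal.coe_one, Metric.eball_coe, NNReal.coe_one] at this
  · funext τ
    have hq : ‖𝕢 1 (τ : ℂ)‖ < 1 := Periodic.norm_qParam_lt_one one_pos τ.im_pos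
    have hq1 : 𝕢 1 (τ : ℂ) ≠ 0 := Periodic.qParam_ne_zero _
    rw [Fermat.Agent.S24.JFun.ofQ_apply, update_of_ne hq1]
    exact (hf τ).unique (hasSum_cuspFunction_punctured hf hq hq1)

/-- A function given by a `q`-series converging on all of `ℍ` has an analytic cusp function. -/
theorem analyticAt_cuspFunction_of_hasSum {f : ℍ → ℂ} {c : ℕ → ℂ}
    (hf : ∀ τ : ℍ, HasSum (fun m : ℕ => c m • 𝕢 1 (τ : ℂ) ^ m) (f τ)) :
    AnalyticAt ℂ (cuspFunction 1 f) 0 := by
  obtain ⟨g, hg, rfl⟩ := exists_ofQ_of_hasSum hf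
  exact Fermat.Agent.S24.JFun.ofQ_analyticAt hg

/-- **`q`-coefficients of a convergent `q`-series.** -/
theorem qCoeff_eq_of_hasSum {f : ℍ → ℂ} {c : ℕ → ℂ}
    (hf : ∀ τ : ℍ, HasSum (fun m : ℕ => c m • 𝕢 1 (τ : ℂ) ^ m) (f τ)) (m : ℕ) :
    ModularFormClass.qCoeff f m = c m :=
  Fermat.Agent.S24.JFun.qExpansion_coeff_unique_fun (analyticAt_cuspFunction_of_hasSum hf) hf m

/-- A function given by a `q`-series converging on all of `ℍ` is holomorphic. -/
theorem mdiff_of_hasSum {f : ℍ → ℂ} {c : ℕ → ℂ}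
    (hf : ∀ τ : ℍ, HasSum (fun m : ℕ => c m • 𝕢 1 (τ : ℂ) ^ m) (f τ)) : MDiff f := by
  obtain ⟨g, hg, rfl⟩ := exists_ofQ_of_hasSum hf
  exact Fermat.Agent.S24.JFun.ofQ_mdiff hg

end Fermat.Agent.S16.H302
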