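import Fermat.Agent.S16.Interface
import Fermat.Agent.S16.H756.ThetaSum
import Fermat.Agent.S16.H302.QSeries

/-!
# S16 (helper302): `q`-expansion of the quaternary theta series — exact skeleton shape

`qCoeff_theta` is `Skel.qCoeff_theta` of `origin/helper556:Fermat/Agent/S16/Skeleton.lean`,
stated with the interface definitions of `Fermat/Agent/S16/Interface.lean`:
for a good lattice `(A, B)` the theta series `θ_A = ∑_x exp(πi z xᵀAx)` has constant term `1`
and even higher `q`-coefficients (representation numbers `r(k) = #{x | xᵀAx = 2k}`).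

No modularity input is used.
-/

set_option autoImplicit false

noncomputable section

namespace Fermat.Agent.S16.H302

open UpperHalfPlane ModularFormClass Function
open Fermat.Agent.S16

local notation "𝕢" => Function.Periodic.qParam

variable {p : ℕ} {A B : Matrix (Fin 4) (Fin 4) ℤ}

/-! ### The integral quadratic form -/

theorem qf_cast_real (A : Matrix (Fin 4) (Fin 4) ℤ) (x : Fin 4 → ℤ) :
    ((qf A x : ℤ) : ℝ) = H756.qf (A.map (Int.cast : ℤ → ℝ)) (H756.vR x) :=
  (H756.qf_mR A x).symm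

theorem qf_zero (A : Matrix (Fin 4) (Fin 4) ℤ) : qf A 0 = 0 := by
  simp [qf]

theorem qf_neg (A : Matrix (Fin 4) (Fin 4) ℤ) (x : Fin 4 → ℤ) : qf A (-x) = qf A x := by
  simp [qf, Matrix.mulVec_neg]

theorem qf_pos (hA : IsGoodLattice p A B) {x : Fin 4 → ℤ} (hx : x ≠ 0) : 0 < qf A x := by
  have h1 : H756.vR x ≠ 0 := fun h => hx (H756.vR_injective (by rw [h, H756.vR_zero]))
  have h2 := H756.qf_pos_of_posDef hA.posDef h1
  rw [← qf_cast_real] at h2
  exact_mod_cast h2

theorem qf_nonneg (hA : IsGoodLattice p A B) (x : Fin 4 → ℤ) : 0 ≤ qf A x := by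
  rcases eq_or_ne x 0 with rfl | hx
  · rw [qf_zero]
  · exact (qf_pos hA hx).le

theorem qf_eq_zero_iff (hA : IsGoodLattice p A B) {x : Fin 4 → ℤ} : qf A x = 0 ↔ x = 0 := by
  constructor
  · intro h
    by_contra hx
    exact (qf_pos hA hx).ne' h
  · rintro rfl
    exact qf_zero A

theorem qf_even (hA : IsGoodLattice p A B) (x : Fin 4 → ℤ) : Even (qf A x) := by
  obtain ⟨a0, h0⟩ := hA.even 0
  obtain ⟨a1, h1⟩ := hA.even 1
  obtain ⟨a2, h2⟩ := hA.even 2
  obtain ⟨a3, h3⟩ := hA.even 3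
  have s10 : A 1 0 = A 0 1 := hA.symm.apply 0 1
  have s20 : A 2 0 = A 0 2 := hA.symm.apply 0 2
  have s30 : A 3 0 = A 0 3 := hA.symm.apply 0 3
  have s21 : A 2 1 = A 1 2 := hA.symm.apply 1 2
  have s31 : A 3 1 = A 1 3 := hA.symm.apply 1 3
  have s32 : A 3 2 = A 2 3 := hA.symm.apply 2 3
  refine ⟨a0 * x 0 ^ 2 + a1 * x 1 ^ 2 + a2 * x 2 ^ 2 + a3 * x 3 ^ 2
    + A 0 1 * x 0 * x 1 + A 0 2 * x 0 * x 2 + A 0 3 * x 0 * x 3
    + A 1 2 * x 1 * x 2 + A 1 3 * x 1 * x 3 + A 2 3 * x 2 * x 3, ?_⟩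
  simp only [qf, dotProduct, Matrix.mulVec, Fin.sum_univ_four, h0, h1, h2, h3, s10, s20, s30, s21,
    s31, s32]
  ring

/-- `xᵀAx / 2` as a natural number. -/
def half (A : Matrix (Fin 4) (Fin 4) ℤ) (x : Fin 4 → ℤ) : ℕ := (qf A x / 2).toNat

theorem two_mul_half (hA : IsGoodLattice p A B) (x : Fin 4 → ℤ) :
    (2 : ℤ) * (half A x : ℤ) = qf A x := by
  have h1 := qf_nonneg hA x
  obtain ⟨r, hr⟩ := qf_even hA x
  unfold half
  omega

theorem half_neg (A : Matrix (Fin 4) (Fin 4) ℤ) (x : Fin 4 → ℤ) : half A (-x) = half A x := by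
  simp [half, qf_neg]

theorem half_eq_zero_iff (hA : IsGoodLattice p A B) {x : Fin 4 → ℤ} : half A x = 0 ↔ x = 0 := by
  rw [← qf_eq_zero_iff hA, ← two_mul_half hA x]
  omega

/-! ### The theta series as a `q`-series -/

theorem theta_term_eq (hA : IsGoodLattice p A B) (z : ℍ) (x : Fin 4 → ℤ) :
    Complex.exp (Real.pi * Complex.I * z * (qf A x : ℂ)) = 𝕢 1 (z : ℂ) ^ half A x := by
  have h : ((qf A x : ℤ) : ℂ) = 2 * (half A x : ℂ) := by
    rw [← two_mul_half hA x]
    push_cast
    ring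
  rw [Function.Periodic.qParam, ← Complex.exp_nat_mul, h]
  congr 1
  push_cast
  ring

theorem summable_theta_term (hA : IsGoodLattice p A B) (z : ℍ) :
    Summable fun x : Fin 4 → ℤ => Complex.exp (Real.pi * Complex.I * z * (qf A x : ℂ)) := by
  have h := H756.summable_thetaTerm (M := A.map (Int.cast : ℤ → ℝ)) hA.posDef (τ := (z : ℂ))
    z.im_pos
  refine h.congr fun x => ?_
  rw [H756.thetaTerm, ← qf_cast_real]
  push_cast
  rfl

/-- The representation numbers `r(k) = #{x | xᵀAx = 2k}` (as `Nat.card`). -/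
def repNum (A : Matrix (Fin 4) (Fin 4) ℤ) (k : ℕ) : ℕ :=
  Nat.card {x : Fin 4 → ℤ // half A x = k}

theorem hasSum_thetaFun (hA : IsGoodLattice p A B) (z : ℍ) :
    HasSum (fun k : ℕ => (repNum A k : ℂ) • 𝕢 1 (z : ℂ) ^ k) (thetaFun A z) := by
  have hs : HasSum (fun x : Fin 4 → ℤ => 𝕢 1 (z : ℂ) ^ half A x) (thetaFun A z) := by
    have h := (summable_theta_term hA z).hasSum
    simp only [theta_term_eq hA z] at h
    have h2 : thetaFun A z = ∑' x : Fin 4 → ℤ, 𝕢 1 (z : ℂ) ^ half A x := by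
      rw [thetaFun]
      exact tsum_congr fun x => theta_term_eq hA z x
    rw [h2]
    exact h
  have hs' := (Equiv.hasSum_iff (Equiv.sigmaFiberEquiv (half A))).mpr hs
  refine HasSum.sigma hs' fun k => ?_
  have hsum := hs'.summable.sigma_factor k
  have hfun : (fun c : {x : Fin 4 → ℤ // half A x = k} =>
      ((fun x : Fin 4 → ℤ => 𝕢 1 (z : ℂ) ^ half A x) ∘ (Equiv.sigmaFiberEquiv (half A))) ⟨k, c⟩)
      = fun _ => 𝕢 1 (z : ℂ) ^ k := by
    funext c
    simp only [Function.comp_apply, Equiv.sigmaFiberEquiv_apply, c.2]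
  rw [hfun] at hsum ⊢
  have ht := hsum.hasSum
  rw [tsum_const] at ht
  simpa [repNum, nsmul_eq_mul] using ht

/-! ### Representation numbers -/

theorem repNum_zero (hA : IsGoodLattice p A B) : repNum A 0 = 1 := by
  rw [repNum, Nat.card_eq_one_iff_unique]
  refine ⟨⟨fun a b => ?_⟩, ⟨⟨0, (half_eq_zero_iff hA).mpr rfl⟩⟩⟩
  have ha := (half_eq_zero_iff hA).mp a.2
  have hb := (half_eq_zero_iff hA).mp b.2
  exact Subtype.ext (ha.trans hb.symm)

theorem even_repNum (hA : IsGoodLattice p A B) {k : ℕ} (hk : 1 ≤ k) : Even (repNum A k) := by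
  rw [repNum]
  rcases finite_or_infinite {x : Fin 4 → ℤ // half A x = k} with hfin | hinf
  · classical
    have := Fintype.ofFinite {x : Fin 4 → ℤ // half A x = k}
    rw [Nat.card_eq_fintype_card, ← Finset.card_univ]
    have key : ∑ _x ∈ (Finset.univ : Finset {x : Fin 4 → ℤ // half A x = k}), (1 : ZMod 2) = 0 := by
      refine Finset.sum_involution (fun a _ => ⟨-a.1, (half_neg A a.1).trans a.2⟩) ?_ ?_ ?_ ?_
      · intro a _
        decide
      · intro a _ _ h
        have h1 : -a.1 = a.1 := congrArg Subtype.val h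
        have h2 : a.1 = 0 := by
          funext i
          have := congrFun h1 i
          simp only [Pi.neg_apply, Pi.zero_apply] at this ⊢
          omega
        have h3 := (half_eq_zero_iff hA).mpr h2
        have h4 := a.2
        omega
      · intro a _
        exact Finset.mem_univ _
      · intro a _
        exact Subtype.ext (neg_neg a.1)
    rw [Finset.sum_const, nsmul_eq_mul, mul_one] at key
    exact (ZMod.natCast_eq_zero_iff_even).mp key
  · rw [Nat.card_eq_zero_of_infinite]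
    exact Even.zero

/-! ### Analytic corollaries (holomorphy, boundedness at `i∞`, non-vanishing) -/

open scoped Manifold in
/-- The theta series is holomorphic on `ℍ`. -/
theorem thetaFun_mdiff (hA : IsGoodLattice p A B) : MDiff (thetaFun A) :=
  mdiff_of_hasSum (c := fun k => (repNum A k : ℂ)) (hasSum_thetaFun hA)

/-- The theta series is bounded at `i∞`. -/
theorem thetaFun_isBoundedAtImInfty (hA : IsGoodLattice p A B) :
    IsBoundedAtImInfty (thetaFun A) :=
  isBoundedAtImInfty_of_hasSum_qExpansion (c := fun k => (repNum A k : ℂ)) one_pos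
    (hasSum_thetaFun hA)

/-- The cusp function of the theta series is analytic at `0`. -/
theorem thetaFun_analyticAt_cuspFunction (hA : IsGoodLattice p A B) :
    AnalyticAt ℂ (cuspFunction 1 (thetaFun A)) 0 :=
  analyticAt_cuspFunction_of_hasSum (c := fun k => (repNum A k : ℂ)) (hasSum_thetaFun hA)

/-- All `q`-coefficients of the theta series: the representation numbers. -/
theorem qCoeff_thetaFun (hA : IsGoodLattice p A B) (k : ℕ) :
    qCoeff (thetaFun A) k = (repNum A k : ℂ) :=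
  qCoeff_eq_of_hasSum (c := fun k => (repNum A k : ℂ)) (hasSum_thetaFun hA) k

/-- The theta series is not identically zero. -/
theorem thetaFun_ne_zero (hA : IsGoodLattice p A B) : thetaFun A ≠ 0 := by
  intro h
  have h1 := qCoeff_thetaFun hA 0
  rw [repNum_zero hA, h, qCoeff, qExpansion_zero] at h1
  simp at h1

/-- The theta series is invariant under `z ↦ z + 1`. -/
theorem thetaFun_vadd_one (hA : IsGoodLattice p A B) (z : ℍ) :
    thetaFun A ((1 : ℝ) +ᵥ z) = thetaFun A z := by
  have h1 := hasSum_thetaFun hA ((1 : ℝ) +ᵥ z)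
  rw [Fermat.Agent.S24.JFun.qParam_one_vadd] at h1
  exact h1.unique (hasSum_thetaFun hA z)

/-! ### The skeleton statement -/

/-- **WP TH (q-expansion)**, exact shape of `Skel.qCoeff_theta`. -/
theorem qCoeff_theta (p : ℕ) [Fact p.Prime] (A B : Matrix (Fin 4) (Fin 4) ℤ)
    (hA : IsGoodLattice p A B) :
    qCoeff (thetaFun A) 0 = 1 ∧ ∀ k : ℕ, 1 ≤ k → ∃ m : ℤ, qCoeff (thetaFun A) k = 2 * (m : ℂ) := by
  have hq : ∀ k : ℕ, qCoeff (thetaFun A) k = (repNum A k : ℂ) :=
    fun k => qCoeff_eq_of_hasSum (c := fun k => (repNum A k : ℂ)) (hasSum_thetaFun hA) k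
  refine ⟨?_, fun k hk => ?_⟩
  · rw [hq, repNum_zero hA, Nat.cast_one]
  · obtain ⟨r, hr⟩ := even_repNum hA hk
    refine ⟨(r : ℤ), ?_⟩
    rw [hq, hr]
    push_cast
    ring

end Fermat.Agent.S16.H302
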